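import Fermat.Agent.SupportProblem.Irreducible
import Mathlib.GroupTheory.QuotientGroup.Basic

/-!
# Translations at composite levels from those at prime powers

If for every `N = pⁿ e`, `p ∤ e`, what fixes the `N`-torsion translates the `e`-th multiples of
`N`-th parts by the `e`-th multiple of a family of `N`-torsion, it translates them by that family:
its order modulo the translations obtained divides every such `e`.
-/

set_option autoImplicit false

noncomputable section

namespace FA.Bashmakov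

variable {G A : Type*} [Group G] [AddCommGroup A] (act : G →* AddMonoid.End A) {ι : Type*}

/-- **Gluing translations over the prime powers of the level**, for one family. -/
theorem exists_translations_glue_one {N : ℕ} (hN : N ≠ 0) {Q : ι → A}
    (hQ : ∀ i σ, act σ (N • Q i) = N • Q i) (t : ι → A)
    (hloc : ∀ p n e : ℕ, p.Prime → N = p ^ n * e → ¬ p ∣ e →
      ∃ k, (∀ y, N • y = 0 → act k y = y) ∧ ∀ i, act k (e • Q i) = e • Q i + e • t i) :
    ∃ k, (∀ y, N • y = 0 → act k y = y) ∧ ∀ i, act k (Q i) = Q i + t i := by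
  let S : AddSubgroup (ι → A) :=
    { carrier := {d | (∀ i, N • d i = 0) ∧
        ∃ k, (∀ y, N • y = 0 → act k y = y) ∧ ∀ i, act k (Q i) = Q i + d i}
      zero_mem' := ⟨fun i => by rw [Pi.zero_apply, nsmul_zero], 1,
        fun y _ => by rw [map_one]; rfl,
        fun i => by rw [map_one, Pi.zero_apply, add_zero]; rfl⟩
      add_mem' := fun {v w} ⟨hv, g, hg, hgQ⟩ ⟨hw, h, hh, hhQ⟩ =>
        ⟨fun i => by rw [Pi.add_apply, nsmul_add, hv i, hw i, add_zero], g * h,
          fun y hy => by rw [act_mul, hh y hy, hg y hy],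
          fun i => by rw [act_mul, hhQ, map_add, hgQ, hg _ (hw i), Pi.add_apply, add_assoc]⟩
      neg_mem' := fun {v} ⟨hv, g, hg, hgQ⟩ => by
        have hg' : ∀ y, N • y = 0 → act g⁻¹ y = y := fun y hy => by
          conv_lhs => rw [← hg y hy]
          rw [act_inv_act]
        refine ⟨fun i => by rw [Pi.neg_apply, smul_neg, hv i, neg_zero], g⁻¹, hg', fun i => ?_⟩
        have e := congrArg (act g⁻¹) (hgQ i)
        rw [act_inv_act, map_add, hg' _ (hv i)] at e
        rw [Pi.neg_apply, ← sub_eq_add_neg, eq_sub_iff_add_eq]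
        exact e.symm }
  suffices h : t ∈ S from h.2
  set o := addOrderOf (t : (ι → A) ⧸ S)
  suffices h : o = 1 by
    rwa [AddMonoid.addOrderOf_eq_one_iff, QuotientAddGroup.eq_zero_iff] at h
  by_contra hne
  obtain ⟨r, hr, hro⟩ := Nat.exists_prime_and_dvd hne
  obtain ⟨n, e, he, hNe⟩ := Nat.exists_eq_pow_mul_and_not_dvd hN r hr.ne_one
  obtain ⟨k, hk, hkQ⟩ := hloc r n e hr hNe he
  have hd : (fun i => act k (Q i) - Q i) ∈ S :=
    ⟨fun i => by rw [nsmul_sub, ← map_nsmul, hQ, sub_self], k, hk,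
      fun i => (add_sub_cancel _ _).symm⟩
  have hmem : e • t ∈ S := by
    have he' : e • t = e • fun i => act k (Q i) - Q i := funext fun i => by
      rw [Pi.smul_apply, Pi.smul_apply, nsmul_sub, ← map_nsmul, hkQ, add_sub_cancel_left]
    rw [he']
    exact S.nsmul_mem hd e
  refine he (hro.trans (addOrderOf_dvd_of_nsmul_eq_zero ?_))
  rw [← QuotientAddGroup.mk_nsmul, QuotientAddGroup.eq_zero_iff]
  exact hmem

/-- **Gluing translations over the prime powers of the level.** -/
theorem exists_translations_glue {N : ℕ} (hN : N ≠ 0) {Q : ι → A}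
    (hQ : ∀ i σ, act σ (N • Q i) = N • Q i)
    (hloc : ∀ p n e : ℕ, p.Prime → N = p ^ n * e → ¬ p ∣ e → ∀ t : ι → A,
      (∀ i, p ^ n • t i = 0) →
      ∃ k, (∀ y, N • y = 0 → act k y = y) ∧ ∀ i, act k (e • Q i) = e • Q i + t i)
    (t : ι → A) (ht : ∀ i, N • t i = 0) :
    ∃ k, (∀ y, N • y = 0 → act k y = y) ∧ ∀ i, act k (Q i) = Q i + t i :=
  exists_translations_glue_one act hN hQ t fun p n e hp hNe he =>
    hloc p n e hp hNe he _ fun i => by rw [← mul_nsmul', ← hNe, ht i]

/-- **The commutator of `-1` on the `pⁿ`-torsion and a square** translates by `-4` times the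
translation. -/
theorem exists_act_commutator_sq {p n : ℕ} (hp : Odd p) (hp0 : p.Prime) {Q : ι → A}
    (hQ : ∀ i σ, act σ (p ^ n • Q i) = p ^ n • Q i) {P : G → Prop}
    (hcomm : ∀ g, ∃ τ, (∀ y ∈ pTors A p n, act τ y = -y) ∧ P (τ * (g * g) * τ⁻¹ * (g * g)⁻¹))
    (htr : ∀ w : ι → pTors A p n, ∃ g, (∀ x : pTors A p n, act g x.1 = x.1) ∧
      ∀ i, act g (Q i) = Q i + (w i).1)
    {t : ι → A} (ht : ∀ i, p ^ n • t i = 0) :
    ∃ k, P k ∧ ∀ i, act k (Q i) = Q i + t i := by
  have hcop : IsCoprime (4 : ℤ) ((p ^ n : ℕ) : ℤ) := by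
    have h4 : Nat.Coprime (2 ^ 2) (p ^ n) :=
      (((Nat.coprime_primes Nat.prime_two hp0).mpr (fun h => by
        obtain ⟨h', hh⟩ := hp; omega)).pow_left 2).pow_right n
    simpa using Nat.isCoprime_iff_coprime.mpr h4
  obtain ⟨u, v, huv⟩ := hcop
  obtain ⟨g, hg, hgQ⟩ := htr fun i => (-u) • ⟨t i, mem_pTors_iff.mpr (ht i)⟩
  obtain ⟨τ, hτ, hP⟩ := hcomm g
  refine ⟨_, hP, fun i => ?_⟩
  have hw : (-u) • t i ∈ pTors A p n := zsmul_mem (mem_pTors_iff.mpr (ht i)) _
  have hgg : act (g * g) (Q i) = Q i + 2 • ((-u) • t i) := by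
    rw [act_mul, hgQ i, map_add, hgQ i, hg]
    show Q i + (-u) • t i + (-u) • t i = _
    rw [two_nsmul, add_assoc]
  rw [(FA.SupportProblem.commutator_act_le act le_rfl hτ
    (g := g * g) fun y hy => by rw [act_mul, hg ⟨y, hy⟩, hg ⟨y, hy⟩]).2 (hQ i) hgg]
  have h4 : (u * 4) • t i = t i := by
    conv_rhs => rw [← one_zsmul (t i), ← huv, add_zsmul, mul_zsmul _ v, natCast_zsmul, ht i,
      zsmul_zero, add_zero]
  rw [sub_eq_add_neg]
  congr 1
  conv_rhs => rw [← h4]
  module

end FA.Bashmakov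

end
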