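import Mathlib.Algebra.Module.Torsion.Basic
import Mathlib.Algebra.Ring.GeomSum
import Mathlib.Data.ZMod.Basic
import Mathlib.RingTheory.Nilpotent.Basic
import Mathlib.Tactic

/-!
# Kummer theory for a module with torsion `(ℤ/pⁿ)²` and every automorphism induced

Let a group act on an abelian group `A` whose `pⁿ`-torsion is `(ℤ/pⁿ)²`, all of whose automorphisms
are induced, `p` odd. If `Q` is such that `pⁿ Q` is fixed and is not `p` times a fixed element, then
every pair of an automorphism of the `pⁿ`-torsion and a translation of `Q` by torsion is induced.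

The translations by elements fixing the torsion form a subgroup stable under all automorphisms, so
it is everything or consists of multiples of `p`; in the second case an element acting as `-1` on
the torsion gives a fixed element `p`-th part of `pⁿ Q` (Sah).
-/

set_option autoImplicit false

noncomputable section

namespace FA.Bashmakov

/-- Elements of `ℤ/pⁿ` are units or multiples of `p`. -/
theorem isUnit_or_eq_prime_mul {p n : ℕ} (hp : p.Prime) (z : ZMod (p ^ n)) :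
    IsUnit z ∨ ∃ b, z = (p : ZMod (p ^ n)) * b := by
  have : NeZero (p ^ n) := ⟨pow_ne_zero _ hp.ne_zero⟩
  by_cases h : p ∣ z.val
  · obtain ⟨b, hb⟩ := h
    exact Or.inr ⟨b, by rw [← Nat.cast_mul, ← hb, ZMod.natCast_zmod_val]⟩
  · refine Or.inl ?_
    have hc : z.val.Coprime (p ^ n) := ((hp.coprime_iff_not_dvd.mpr h).symm).pow_right n
    exact ⟨ZMod.unitOfCoprime _ hc, by simp⟩

/-- A subgroup of `(ℤ/pⁿ)²`, `p` odd, stable under all automorphisms, is everything or consists of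
multiples of `p`. -/
theorem eq_top_or_le_prime {p n : ℕ} (hp : p.Prime) (hp2 : p ≠ 2)
    (C : AddSubgroup (Fin 2 → ZMod (p ^ n)))
    (hC : ∀ u : (Fin 2 → ZMod (p ^ n)) ≃+ (Fin 2 → ZMod (p ^ n)), ∀ v ∈ C, u v ∈ C) :
    C = ⊤ ∨ ∀ v ∈ C, ∃ w, v = p • w := by
  by_cases h : ∀ v ∈ C, ∀ i, ∃ b, v i = (p : ZMod (p ^ n)) * b
  · refine Or.inr fun v hv => ?_
    choose b hb using h v hv
    exact ⟨b, funext fun i => by rw [Pi.smul_apply, nsmul_eq_mul, hb]⟩
  push Not at h
  obtain ⟨v, hv, i, hi⟩ := h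
  obtain ⟨c, hc⟩ := ((isUnit_or_eq_prime_mul hp (v i)).resolve_right
    fun ⟨b, hb⟩ => hi b hb).exists_left_inv
  obtain ⟨w2, hw2⟩ : ∃ w, w * (2 : ZMod (p ^ n)) = 1 := by
    have h2 : Nat.Coprime 2 (p ^ n) := (Nat.coprime_two_left.mpr (hp.odd_of_ne_two hp2)).pow_right n
    exact ((ZMod.unitOfCoprime 2 h2).isUnit).exists_left_inv
  have hline : ∃ x : ZMod (p ^ n), IsUnit x ∧ ![x, 0] ∈ C ∧ ![0, x] ∈ C := by
    have hu : IsUnit (v i) := IsUnit.of_mul_eq_one_right c hc
    refine ⟨v i, hu, ?_⟩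
    let u0 : (Fin 2 → ZMod (p ^ n)) ≃+ (Fin 2 → ZMod (p ^ n)) :=
      { toFun := fun w => ![2 * w 0, w 1]
        invFun := fun w => ![w2 * w 0, w 1]
        left_inv := fun w => by funext j; fin_cases j <;> simp [← mul_assoc, hw2]
        right_inv := fun w => by
          funext j; fin_cases j <;> simp [← mul_assoc, mul_comm (2 : ZMod (p ^ n)) w2, hw2]
        map_add' := fun a b => by funext j; fin_cases j <;> simp [mul_add] }
    let u1 : (Fin 2 → ZMod (p ^ n)) ≃+ (Fin 2 → ZMod (p ^ n)) :=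
      { toFun := fun w => ![w 0, 2 * w 1]
        invFun := fun w => ![w 0, w2 * w 1]
        left_inv := fun w => by funext j; fin_cases j <;> simp [← mul_assoc, hw2]
        right_inv := fun w => by
          funext j; fin_cases j <;> simp [← mul_assoc, mul_comm (2 : ZMod (p ^ n)) w2, hw2]
        map_add' := fun a b => by funext j; fin_cases j <;> simp [mul_add] }
    let sw : (Fin 2 → ZMod (p ^ n)) ≃+ (Fin 2 → ZMod (p ^ n)) :=
      { toFun := fun w => ![w 1, w 0]
        invFun := fun w => ![w 1, w 0]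
        left_inv := fun w => by funext j; fin_cases j <;> simp
        right_inv := fun w => by funext j; fin_cases j <;> simp
        map_add' := fun a b => by funext j; fin_cases j <;> simp }
    have hsw : ∀ x : ZMod (p ^ n), sw ![x, 0] = ![0, x] ∧ sw ![0, x] = ![x, 0] := fun x => by
      constructor <;> (funext j; fin_cases j <;> simp [sw])
    fin_cases i
    · have e : ![v 0, 0] = u0 v - v := by funext j; fin_cases j <;> simp [u0]; ring
      have h0 : ![v 0, 0] ∈ C := e ▸ C.sub_mem (hC u0 v hv) hv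
      exact ⟨h0, (hsw (v 0)).1 ▸ hC sw _ h0⟩
    · have e : ![0, v 1] = u1 v - v := by funext j; fin_cases j <;> simp [u1]; ring
      have h1 : ![0, v 1] ∈ C := e ▸ C.sub_mem (hC u1 v hv) hv
      exact ⟨(hsw (v 1)).2 ▸ hC sw _ h1, h1⟩
  obtain ⟨x, hx, hx0, hx1⟩ := hline
  have hscal : ∀ (z : ZMod (p ^ n)) (w : Fin 2 → ZMod (p ^ n)), w ∈ C → z • w ∈ C := by
    intro z w hw
    have hunit : ∀ z : ZMod (p ^ n), IsUnit z → z • w ∈ C := fun z hz =>
      hC (DistribMulAction.toAddEquiv _ hz.unit) w hw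
    rcases isUnit_or_eq_prime_mul hp z with hz | ⟨b, rfl⟩
    · exact hunit z hz
    · have hnil : IsNilpotent ((p : ZMod (p ^ n)) * b) :=
        ⟨n, by rw [mul_pow, ← Nat.cast_pow, ZMod.natCast_self, zero_mul]⟩
      have h' := C.add_mem (hunit _ hnil.isUnit_sub_one) hw
      rwa [sub_smul, one_smul, sub_add_cancel] at h'
  obtain ⟨y, hy⟩ := hx.exists_left_inv
  refine Or.inl (eq_top_iff.mpr fun w _ => ?_)
  have e : w = (w 0 * y) • ![x, 0] + (w 1 * y) • ![0, x] := by
    funext j; fin_cases j <;> simp [mul_assoc, hy]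
  rw [e]
  exact C.add_mem (hscal _ _ hx0) (hscal _ _ hx1)

/-- The `pⁿ`-torsion. -/
abbrev pTors (A : Type*) [AddCommGroup A] (p n : ℕ) : Submodule ℤ A :=
  Submodule.torsionBy ℤ A ((p : ℤ) ^ n)

variable {G A : Type*} [Group G] [AddCommGroup A] (act : G →* AddMonoid.End A)

/-- **Every automorphism of the torsion with every translation is induced.** -/
theorem exists_act_eq {p n : ℕ} (hp : p.Prime) (hp2 : p ≠ 2)
    (c : (Fin 2 → ZMod (p ^ n)) ≃+ Submodule.torsionBy ℤ A ((p : ℤ) ^ n))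
    (hfull : ∀ φ : Submodule.torsionBy ℤ A ((p : ℤ) ^ n) ≃+ Submodule.torsionBy ℤ A ((p : ℤ) ^ n),
      ∃ σ, ∀ x, act σ x.1 = (φ x).1)
    {Q : A} (hQ : ∀ σ, act σ (p ^ n • Q) = p ^ n • Q)
    (hP : ∀ R : A, (∀ σ, act σ R = R) → p • R ≠ p ^ n • Q)
    (φ : Submodule.torsionBy ℤ A ((p : ℤ) ^ n) ≃+ Submodule.torsionBy ℤ A ((p : ℤ) ^ n))
    (t : Submodule.torsionBy ℤ A ((p : ℤ) ^ n)) :
    ∃ σ, (∀ x, act σ x.1 = (φ x).1) ∧ act σ Q = Q + t.1 := by
  have hmem : ∀ {y : A}, y ∈ (pTors A p n) ↔ p ^ n • y = 0 := fun {y} => by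
    rw [Submodule.mem_torsionBy_iff, ← Nat.cast_pow, natCast_zsmul]
  rcases Nat.eq_zero_or_pos n with hn0 | hn
  · have h0 : ∀ x : (pTors A p n), x.1 = 0 := fun x => by
      have := hmem.mp x.2
      rwa [show p ^ n = 1 by rw [hn0, pow_zero], one_nsmul] at this
    refine ⟨1, fun x => ?_, ?_⟩
    · rw [map_one, AddMonoid.End.coe_one, id_eq, h0 x, h0 (φ x)]
    · rw [map_one, AddMonoid.End.coe_one, id_eq, h0 t, add_zero]
  have hmul : ∀ (σ τ : G) (y : A), act (σ * τ) y = act σ (act τ y) := fun σ τ y => by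
    rw [map_mul]; rfl
  have hinv : ∀ (σ : G) (y : A), act σ (act σ⁻¹ y) = y := fun σ y => by
    rw [← hmul, mul_inv_cancel, map_one]; rfl
  have hstab : ∀ (σ : G) {y : A}, y ∈ pTors A p n → act σ y ∈ pTors A p n := fun σ y hy => by
    rw [hmem] at hy ⊢
    rw [← map_nsmul, hy, map_zero]
  have hd : ∀ σ, act σ Q - Q ∈ (pTors A p n) := fun σ => by
    rw [hmem, nsmul_sub, ← map_nsmul, hQ, sub_self]
  -- the translations by what fixes the torsion
  let C : AddSubgroup (Fin 2 → ZMod (p ^ n)) :=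
    { carrier := {v | ∃ g, (∀ x : (pTors A p n), act g x.1 = x.1) ∧ act g Q = Q + (c v).1}
      zero_mem' := ⟨1, fun x => by rw [map_one]; rfl, by
        rw [map_one, map_zero, ZeroMemClass.coe_zero, add_zero]; rfl⟩
      add_mem' := fun {v w} ⟨g, hg, hgQ⟩ ⟨h, hh, hhQ⟩ =>
        ⟨g * h, fun x => by rw [hmul, hh x, hg x],
          by rw [hmul, hhQ, map_add, hgQ, hg (c w), map_add c, Submodule.coe_add, add_assoc]⟩
      neg_mem' := fun {v} ⟨g, hg, hgQ⟩ => by
        have hg' : ∀ x : (pTors A p n), act g⁻¹ x.1 = x.1 := fun x => by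
          conv_lhs => rw [← hg x]
          rw [← hmul, inv_mul_cancel, map_one]; rfl
        refine ⟨g⁻¹, hg', ?_⟩
        have e := congrArg (act g⁻¹) hgQ
        rw [← hmul, inv_mul_cancel, map_one, map_add, hg' (c v)] at e
        rw [map_neg, Submodule.coe_neg, ← sub_eq_add_neg, eq_sub_iff_add_eq]
        exact e.symm }
  have hC : ∀ u : (Fin 2 → ZMod (p ^ n)) ≃+ (Fin 2 → ZMod (p ^ n)), ∀ v ∈ C, u v ∈ C := by
    rintro u v ⟨g, hg, hgQ⟩
    obtain ⟨σ, hσ⟩ := hfull ((c.symm.trans u).trans c)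
    refine ⟨σ * g * σ⁻¹, fun x => ?_, ?_⟩
    · rw [hmul, hmul, hg ⟨act σ⁻¹ x.1, hstab σ⁻¹ x.2⟩, hinv]
    · rw [hmul, hmul,
        show act σ⁻¹ Q = Q + (act σ⁻¹ Q - Q) by rw [add_sub_cancel], map_add, hgQ,
        hg ⟨_, hd σ⁻¹⟩, add_right_comm, add_sub_cancel, map_add, hinv, hσ (c v)]
      simp
  rcases eq_top_or_le_prime hp hp2 C hC with htop | hle
  · obtain ⟨σ, hσ⟩ := hfull φ
    have hw : act σ⁻¹ (t.1 - (act σ Q - Q)) ∈ (pTors A p n) := hstab _ (sub_mem t.2 (hd σ))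
    obtain ⟨g, hg, hgQ⟩ : c.symm ⟨_, hw⟩ ∈ C := htop ▸ AddSubgroup.mem_top _
    refine ⟨σ * g, fun x => by rw [hmul, hg x, hσ], ?_⟩
    rw [hmul, hgQ, map_add, AddEquiv.apply_symm_apply, hinv]
    abel
  -- the case of multiples of `p`: a fixed `p`-th part
  exfalso
  obtain ⟨m, hm⟩ : ∃ m, n = m + 1 := ⟨n - 1, by omega⟩
  obtain ⟨Q', hQ'⟩ : ∃ R, R = p ^ m • Q := ⟨_, rfl⟩
  have hpQ : p • Q' = p ^ n • Q := by rw [hQ', ← mul_nsmul', hm, pow_succ']
  have hfix : ∀ g, (∀ x : (pTors A p n), act g x.1 = x.1) → act g Q' = Q' := fun g hg => by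
    obtain ⟨w, hw⟩ := hle (c.symm ⟨_, hd g⟩) ⟨g, hg, by
      rw [AddEquiv.apply_symm_apply, add_sub_cancel]⟩
    have e : act g Q - Q = p • (c w).1 := by
      rw [← AddSubmonoidClass.coe_nsmul, ← map_nsmul, ← hw, AddEquiv.apply_symm_apply]
    rw [hQ', map_nsmul, ← sub_eq_zero, ← nsmul_sub, e, ← mul_nsmul', ← pow_succ, ← hm]
    exact hmem.mp (c w).2
  have hη : ∀ σ, p • (act σ Q' - Q') = 0 ∧ act σ Q' - Q' ∈ (pTors A p n) := fun σ => by
    have h1 : p • (act σ Q' - Q') = 0 := by rw [nsmul_sub, ← map_nsmul, hpQ, hQ, sub_self]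
    exact ⟨h1, hmem.mpr (by rw [hm, pow_succ, mul_nsmul', h1, nsmul_zero])⟩
  obtain ⟨d, hd'⟩ := hfull (AddEquiv.neg (pTors A p n))
  have hneg : ∀ {y : A}, y ∈ pTors A p n → act d y = -y := fun {y} hy => by
    simpa using hd' ⟨y, hy⟩
  have hcomm : ∀ σ, act σ (act d Q') = act d (act σ Q') := fun σ => by
    have hk : ∀ x : (pTors A p n), act ((σ * d)⁻¹ * (d * σ)) x.1 = x.1 := fun x => by
      have e : act (d * σ) x.1 = act (σ * d) x.1 := by
        rw [hmul, hmul, hneg (hstab σ x.2), hneg x.2, map_neg]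
      rw [hmul, e, ← hmul, inv_mul_cancel, map_one]; rfl
    have e := congrArg (act (σ * d)) (hfix _ hk)
    rw [← hmul, mul_inv_cancel_left, hmul, hmul] at e
    exact e.symm
  obtain ⟨h, hh⟩ := hp.odd_of_ne_two hp2
  set a := act d Q' - Q' with ha
  refine hP (Q' + (h + 1) • a) (fun σ => ?_) ?_
  · have e := hcomm σ
    rw [show act d Q' = Q' + a by rw [ha, add_sub_cancel],
      show act σ Q' = Q' + (act σ Q' - Q') by rw [add_sub_cancel], map_add, map_add,
      hneg (hη σ).2, show act d Q' = Q' + a by rw [ha, add_sub_cancel],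
      show act σ Q' = Q' + (act σ Q' - Q') by rw [add_sub_cancel]] at e
    have e2 : act σ a = a - 2 • (act σ Q' - Q') := by
      rw [add_assoc, add_assoc, add_right_inj] at e
      rw [two_nsmul]
      rw [← eq_sub_iff_add_eq'] at e
      rw [e]; abel
    rw [map_add, map_nsmul, e2]
    have hp0 : (p + 1) • (act σ Q' - Q') = act σ Q' - Q' := by
      rw [succ_nsmul, (hη σ).1, zero_add]
    rw [nsmul_sub, ← mul_nsmul', show (h + 1) * 2 = p + 1 by omega, hp0]
    abel
  · rw [nsmul_add, hpQ, ← mul_nsmul', mul_comm, mul_nsmul', ha, (hη d).1, nsmul_zero, add_zero]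

end FA.Bashmakov

end
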