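import Fermat.Agent.LinearDependence.Family

/-!
# Kummer theory modulo `pⁿ` for a family of points

If every automorphism of the `pⁿ`-torsion is induced, so is every automorphism of the `p`-torsion.
Conjugating by an element acting as `-1` turns the translations of level one into translations
fixing the `pⁿ`-torsion, so the translations fixing the `pⁿ`-torsion are onto modulo `p`, hence
onto: every automorphism of the `pⁿ`-torsion with every family of translations is induced.
-/

set_option autoImplicit false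

noncomputable section

namespace FA.Bashmakov

/-- In `ℤ/pⁿ` what is killed by `pⁱ` is a multiple of `pʲ`, `i + j = n`. -/
theorem exists_eq_pow_mul {p n i j : ℕ} (hp : p.Prime) (hij : i + j = n) {z : ZMod (p ^ n)}
    (hz : (p : ZMod (p ^ n)) ^ i * z = 0) : ∃ b, z = (p : ZMod (p ^ n)) ^ j * b := by
  have : NeZero (p ^ n) := ⟨pow_ne_zero _ hp.ne_zero⟩
  rw [← ZMod.natCast_zmod_val z, ← Nat.cast_pow, ← Nat.cast_mul,
    ZMod.natCast_eq_zero_iff] at hz
  obtain ⟨b, hb⟩ : p ^ j ∣ z.val := by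
    refine Nat.dvd_of_mul_dvd_mul_left (pow_pos hp.pos i) ?_
    rwa [← pow_add, hij]
  exact ⟨b, by rw [← Nat.cast_pow, ← Nat.cast_mul, ← hb, ZMod.natCast_zmod_val]⟩

variable {p n : ℕ} [Fact p.Prime] {A : Type*} [AddCommGroup A]

omit [Fact p.Prime] in
theorem mem_pTors {y : A} : y ∈ pTors A p n ↔ p ^ n • y = 0 := by
  rw [Submodule.mem_torsionBy_iff, ← Nat.cast_pow, natCast_zsmul]

omit [Fact p.Prime] in
/-- The `p`-torsion lies in the `pⁿ`-torsion. -/
theorem pTors_one_le (hn : 1 ≤ n) {y : A} (hy : y ∈ pTors A p 1) : y ∈ pTors A p n := by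
  rw [mem_pTors] at hy ⊢
  rw [← Nat.sub_add_cancel hn, pow_add, mul_nsmul', hy, nsmul_zero]

/-- Every automorphism of the `p`-torsion extends to one of the `pⁿ`-torsion. -/
theorem exists_extend (hn : 1 ≤ n) (c : (Fin 2 → ZMod (p ^ n)) ≃+ pTors A p n)
    (φ : pTors A p 1 ≃+ pTors A p 1) :
    ∃ Φ : pTors A p n ≃+ pTors A p n,
      ∀ x : pTors A p 1, (Φ ⟨x.1, pTors_one_le hn x.2⟩).1 = (φ x).1 := by
  have hp : p.Prime := Fact.out
  have : NeZero (p ^ n) := ⟨pow_ne_zero _ hp.ne_zero⟩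
  obtain ⟨m, hm⟩ : ∃ m, n = m + 1 := ⟨n - 1, by omega⟩
  have he : ∀ j : Fin 2, p ^ m • (c (Pi.single j 1)).1 ∈ pTors A p 1 := fun j => by
    rw [mem_pTors, ← mul_nsmul', ← pow_add, add_comm, ← hm]
    exact mem_pTors.mp (c _).2
  set y : Fin 2 → pTors A p n := fun j => ⟨(φ ⟨_, he j⟩).1, pTors_one_le hn (φ _).2⟩ with hy
  have hdiv : ∀ x : pTors A p n, p • x.1 = 0 → ∃ w, c.symm x = p ^ m • w := fun x hx => by
    have h0 : p • c.symm x = 0 := by
      rw [← map_nsmul, show p • x = 0 from Subtype.ext hx, map_zero]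
    choose b hb using fun i => exists_eq_pow_mul hp (show 1 + m = n by omega)
      (z := c.symm x i) (by rw [pow_one, ← nsmul_eq_mul]; exact congrFun h0 i)
    exact ⟨b, funext fun i => by rw [hb, Pi.smul_apply, nsmul_eq_mul, Nat.cast_pow]⟩
  choose V hV using fun j => hdiv (y j) (by
    have := mem_pTors.mp (φ ⟨_, he j⟩).2
    rwa [pow_one] at this)
  let L : (Fin 2 → ZMod (p ^ n)) →+ (Fin 2 → ZMod (p ^ n)) :=
    AddMonoidHom.mk' (fun w => w 0 • V 0 + w 1 • V 1) fun a b => by
      simp only [Pi.add_apply, add_smul]; abel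
  let Φ₀ : pTors A p n →+ pTors A p n := c.toAddMonoidHom.comp (L.comp c.symm.toAddMonoidHom)
  have key : ∀ x : pTors A p 1, (Φ₀ ⟨x.1, pTors_one_le hn x.2⟩).1 = (φ x).1 := fun x => by
    obtain ⟨w, hw⟩ := hdiv ⟨x.1, pTors_one_le hn x.2⟩ (by
      have := mem_pTors.mp x.2; rwa [pow_one] at this)
    have hs : ∀ (a : ZMod (p ^ n)) (v : Fin 2 → ZMod (p ^ n)), a • v = a.val • v := fun a v => by
      rw [← Nat.cast_smul_eq_nsmul (ZMod (p ^ n)), ZMod.natCast_zmod_val]
    have e1 : Φ₀ ⟨x.1, pTors_one_le hn x.2⟩ = (w 0).val • y 0 + (w 1).val • y 1 := by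
      show c (L (c.symm _)) = _
      rw [hw, map_nsmul]
      show c (p ^ m • (w 0 • V 0 + w 1 • V 1)) = _
      rw [hs, hs, nsmul_add, smul_comm, smul_comm (p ^ m), ← hV, ← hV, map_add, map_nsmul,
        map_nsmul, AddEquiv.apply_symm_apply, AddEquiv.apply_symm_apply]
    have e2 : x = (w 0).val • ⟨_, he 0⟩ + (w 1).val • ⟨_, he 1⟩ := by
      refine Subtype.ext ?_
      have hx : x.1 = (c (p ^ m • w)).1 := by rw [← hw, AddEquiv.apply_symm_apply]
      have hw2 : w = (w 0).val • (Pi.single 0 1 : Fin 2 → ZMod (p ^ n)) +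
          (w 1).val • (Pi.single 1 1 : Fin 2 → ZMod (p ^ n)) := by
        rw [← hs, ← hs]; funext i; fin_cases i <;> simp
      conv_lhs => rw [hx, hw2, nsmul_add, smul_comm, smul_comm (p ^ m), map_add, map_nsmul,
        map_nsmul, map_nsmul, map_nsmul]
      rfl
    conv_rhs => rw [e2, map_add, map_nsmul, map_nsmul]
    rw [e1]
    rfl
  have hinj : ∀ (k : ℕ) (x : pTors A p n), p ^ k • x = 0 → Φ₀ x = 0 → x = 0 := by
    intro k
    induction k with
    | zero => intro x hx _; simpa using hx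
    | succ k ih =>
      intro x hx h0
      have hpx : p • x = 0 := ih _ (by rw [← mul_nsmul', ← pow_succ, hx])
        (by rw [map_nsmul, h0, nsmul_zero])
      have hx1 : x.1 ∈ pTors A p 1 := by
        rw [mem_pTors, pow_one]; exact congrArg Subtype.val hpx
      have e := key ⟨x.1, hx1⟩
      rw [show (⟨x.1, pTors_one_le hn hx1⟩ : pTors A p n) = x from rfl, h0] at e
      have := φ.injective ((Subtype.ext e.symm).trans (map_zero φ).symm)
      exact Subtype.ext (congrArg Subtype.val this :)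
  have : Finite (pTors A p n) := Finite.of_equiv _ c.toEquiv
  have hb : Function.Bijective Φ₀ := Finite.injective_iff_bijective.mp
    ((injective_iff_map_eq_zero _).mpr fun x hx =>
      hinj n x (Subtype.ext (mem_pTors.mp x.2)) hx)
  exact ⟨AddEquiv.ofBijective Φ₀ hb, key⟩

variable {G : Type*} [Group G] (act : G →* AddMonoid.End A)

/-- Every automorphism of the `p`-torsion is induced if every one of the `pⁿ`-torsion is. -/
theorem exists_act_torsion_one (hn : 1 ≤ n) (c : (Fin 2 → ZMod (p ^ n)) ≃+ pTors A p n)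
    (hfull : ∀ φ : pTors A p n ≃+ pTors A p n, ∃ σ, ∀ x, act σ x.1 = (φ x).1)
    (φ : pTors A p 1 ≃+ pTors A p 1) : ∃ σ, ∀ x, act σ x.1 = (φ x).1 := by
  obtain ⟨Φ, hΦ⟩ := exists_extend hn c φ
  obtain ⟨σ, hσ⟩ := hfull Φ
  exact ⟨σ, fun x => (hσ ⟨x.1, pTors_one_le hn x.2⟩).trans (hΦ x)⟩

variable {ι : Type*} [Fintype ι]

/-- **Translations fixing the `pⁿ`-torsion**: a family of `p`-th parts is translated by any family
of `p`-torsion by an element fixing the whole `pⁿ`-torsion. -/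
theorem exists_trivial_translation (hp2 : p ≠ 2) (hn : 1 ≤ n)
    (c : (Fin 2 → ZMod (p ^ 1)) ≃+ pTors A p 1)
    (hfull₁ : ∀ φ : pTors A p 1 ≃+ pTors A p 1, ∃ σ, ∀ x, act σ x.1 = (φ x).1)
    (hfull : ∀ φ : pTors A p n ≃+ pTors A p n, ∃ σ, ∀ x, act σ x.1 = (φ x).1)
    {Q : ι → A} (hQ : ∀ i σ, act σ (p • Q i) = p • Q i)
    (hind : ∀ a : ι → ℤ, (∃ i, ¬ (p : ℤ) ∣ a i) → ∀ R : A, (∀ σ, act σ R = R) →
      p • R ≠ ∑ i, a i • p • Q i)
    (w : ι → pTors A p 1) :
    ∃ g, (∀ x : pTors A p n, act g x.1 = x.1) ∧ ∀ i, act g (Q i) = Q i + (w i).1 := by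
  have hp : p.Prime := Fact.out
  have hmul : ∀ (σ τ : G) (y : A), act (σ * τ) y = act σ (act τ y) := fun σ τ y => by
    rw [map_mul]; rfl
  have hinv : ∀ (σ : G) (y : A), act σ (act σ⁻¹ y) = y := fun σ y => by
    rw [← hmul, mul_inv_cancel, map_one]; rfl
  have hinv' : ∀ (σ : G) (y : A), act σ⁻¹ (act σ y) = y := fun σ y => by
    rw [← hmul, inv_mul_cancel, map_one]; rfl
  have hstab : ∀ (σ : G) {y : A}, y ∈ pTors A p n → act σ y ∈ pTors A p n := fun σ y hy => by
    rw [mem_pTors] at hy ⊢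
    rw [← map_nsmul, hy, map_zero]
  obtain ⟨τ, hτ⟩ := hfull (AddEquiv.neg _)
  have hneg : ∀ {y : A}, y ∈ pTors A p n → act τ y = -y := fun {y} hy => by
    simpa using hτ ⟨y, hy⟩
  have hneg' : ∀ {y : A}, y ∈ pTors A p n → act τ⁻¹ y = -y := fun {y} hy => by
    have e := congrArg (act τ⁻¹) (hneg (neg_mem hy))
    rw [hinv', neg_neg] at e
    exact e.symm
  obtain ⟨h, hh⟩ := hp.odd_of_ne_two hp2
  obtain ⟨g, hg, hgQ⟩ := LinearDependence.exists_act_family act hp2 c hfull₁ hQ hind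
    (AddEquiv.refl _) (fun i => h • w i)
  have hg' : ∀ {y : A}, y ∈ pTors A p 1 → act g y = y := fun {y} hy => by simpa using hg ⟨y, hy⟩
  refine ⟨τ * g * τ⁻¹ * g⁻¹, fun x => ?_, fun i => ?_⟩
  · have hz := hstab g⁻¹ x.2
    rw [hmul, hmul, hmul, hneg' hz, map_neg, hinv, hneg (neg_mem x.2), neg_neg]
  have hhw : h • (w i).1 ∈ pTors A p 1 := nsmul_mem (w i).2 h
  have hgi : act g (Q i) = Q i + h • (w i).1 := hgQ i
  have e1 : act g⁻¹ (Q i) = Q i - h • (w i).1 := by
    have e := congrArg (act g⁻¹) (show act g (Q i - h • (w i).1) = Q i by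
      rw [map_sub, hgi, hg' hhw, add_sub_cancel_right])
    rw [hinv'] at e
    exact e.symm
  set s := act τ⁻¹ (Q i) - Q i with hs
  have hgs : act g s = s := hg' (by
    rw [mem_pTors, pow_one, hs, nsmul_sub, ← map_nsmul, hQ, sub_self])
  have e2 : act τ (Q i) = Q i - act τ s := by
    rw [hs, map_sub, hinv]; abel
  rw [hmul, hmul, hmul, e1, map_sub, hneg' (pTors_one_le hn hhw),
    show act τ⁻¹ (Q i) = Q i + s by rw [hs, add_sub_cancel], sub_neg_eq_add]
  simp only [map_add, hgi, hgs, hg' hhw, e2, hneg (pTors_one_le hn hhw)]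
  have hp0 : h • (w i).1 + h • (w i).1 + (w i).1 = 0 := by
    rw [← add_nsmul, ← succ_nsmul, show h + h + 1 = p by omega]
    have := mem_pTors.mp (w i).2
    rwa [pow_one] at this
  have : -(h • (w i).1) + -(h • (w i).1) = (w i).1 := by
    rw [← neg_add, neg_eq_iff_add_eq_zero, hp0]
  calc Q i - act τ s + -(h • (w i).1) + act τ s + -(h • (w i).1)
      = Q i + (-(h • (w i).1) + -(h • (w i).1)) := by abel
    _ = Q i + (w i).1 := by rw [this]

omit [Fintype ι] in
/-- **Translations fixing the `pⁿ`-torsion, lifted**: if elements fixing it translate the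
`p ^ (n - 1)` multiples of a family by any family of `p`-torsion, they translate the family itself by
any family of `pⁿ`-torsion. -/
theorem exists_translations_pow (c : (Fin 2 → ZMod (p ^ n)) ≃+ pTors A p n)
    {Q : ι → A} (hQ : ∀ i σ, act σ (p ^ n • Q i) = p ^ n • Q i)
    (htriv : ∀ m, n = m + 1 → ∀ w : ι → pTors A p 1, ∃ g, (∀ x : pTors A p n, act g x.1 = x.1) ∧
      ∀ i, act g (p ^ m • Q i) = p ^ m • Q i + (w i).1)
    (t : ι → pTors A p n) :
    ∃ g, (∀ x : pTors A p n, act g x.1 = x.1) ∧ ∀ i, act g (Q i) = Q i + (t i).1 := by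
  have hp : p.Prime := Fact.out
  have hmul : ∀ (σ τ : G) (y : A), act (σ * τ) y = act σ (act τ y) := fun σ τ y => by
    rw [map_mul]; rfl
  have hinv : ∀ (σ : G) (y : A), act σ (act σ⁻¹ y) = y := fun σ y => by
    rw [← hmul, mul_inv_cancel, map_one]; rfl
  have hd : ∀ i σ, act σ (Q i) - Q i ∈ pTors A p n := fun i σ => by
    rw [mem_pTors, nsmul_sub, ← map_nsmul, hQ, sub_self]
  -- the translations by what fixes the torsion
  let C : AddSubgroup (ι → pTors A p n) :=
    { carrier := {v | ∃ g, (∀ x : pTors A p n, act g x.1 = x.1) ∧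
        ∀ i, act g (Q i) = Q i + (v i).1}
      zero_mem' := ⟨1, fun x => by rw [map_one]; rfl, fun i => by
        rw [map_one, Pi.zero_apply, ZeroMemClass.coe_zero, add_zero]; rfl⟩
      add_mem' := fun {v w} ⟨g, hg, hgQ⟩ ⟨h, hh, hhQ⟩ =>
        ⟨g * h, fun x => by rw [hmul, hh x, hg x], fun i => by
          rw [hmul, hhQ, map_add, hgQ, hg (w i), Pi.add_apply, Submodule.coe_add, add_assoc]⟩
      neg_mem' := fun {v} ⟨g, hg, hgQ⟩ => by
        have hg' : ∀ x : pTors A p n, act g⁻¹ x.1 = x.1 := fun x => by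
          conv_lhs => rw [← hg x]
          rw [← hmul, inv_mul_cancel, map_one]; rfl
        refine ⟨g⁻¹, hg', fun i => ?_⟩
        have e := congrArg (act g⁻¹) (hgQ i)
        rw [← hmul, inv_mul_cancel, map_one, map_add, hg' (v i)] at e
        rw [Pi.neg_apply, Submodule.coe_neg, ← sub_eq_add_neg, eq_sub_iff_add_eq]
        exact e.symm }
  have htop : ∀ v, v ∈ C := by
    -- onto modulo `p`, hence onto
    have hmod : ∀ v, ∃ u, v - p • u ∈ C := by
      intro v
      rcases Nat.eq_zero_or_pos n with hn0 | hn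
      · refine ⟨0, ?_⟩
        convert C.zero_mem
        funext i
        refine Subtype.ext ?_
        simpa [hn0] using mem_pTors.mp (v i).2
      obtain ⟨m, hm⟩ : ∃ m, n = m + 1 := ⟨n - 1, by omega⟩
      have hw : ∀ i, p ^ m • (v i).1 ∈ pTors A p 1 := fun i => by
        rw [mem_pTors, ← mul_nsmul', ← pow_add, add_comm, ← hm]
        exact mem_pTors.mp (v i).2
      obtain ⟨g, hg, hgQ⟩ := htriv m hm fun i => ⟨_, hw i⟩
      set v' : ι → pTors A p n := fun i => ⟨_, hd i g⟩
      have hdiff : ∀ i, ∃ u : pTors A p n, v i - v' i = p • u := fun i => by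
        have h0 : p ^ m • (v i - v' i) = 0 := Subtype.ext (by
          show p ^ m • ((v i).1 - (act g (Q i) - Q i)) = 0
          rw [nsmul_sub, nsmul_sub, ← map_nsmul, hgQ i, add_sub_cancel_left, sub_self])
        have h1 : p ^ m • c.symm (v i - v' i) = 0 := by rw [← map_nsmul, h0, map_zero]
        choose b hb using fun k => exists_eq_pow_mul hp (show m + 1 = n by omega)
          (z := c.symm (v i - v' i) k) (by
            rw [← Nat.cast_pow, ← nsmul_eq_mul]; exact congrFun h1 k)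
        refine ⟨c b, c.symm.injective ?_⟩
        rw [map_nsmul, AddEquiv.symm_apply_apply]
        exact funext fun k => by rw [hb, pow_one, Pi.smul_apply, nsmul_eq_mul]
      choose u hu using hdiff
      refine ⟨u, g, hg, fun i => ?_⟩
      rw [Pi.sub_apply, Pi.smul_apply, ← hu i, sub_sub_cancel]
      exact (add_sub_cancel _ _).symm
    have hk : ∀ (k : ℕ) v, ∃ u, v - p ^ k • u ∈ C := by
      intro k
      induction k with
      | zero => exact fun v => ⟨v, by rw [pow_zero, one_nsmul, sub_self]; exact C.zero_mem⟩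
      | succ k ih =>
        intro v
        obtain ⟨u, hu⟩ := ih v
        obtain ⟨u', hu'⟩ := hmod u
        refine ⟨u', ?_⟩
        have := C.add_mem hu (C.nsmul_mem hu' (p ^ k))
        rwa [nsmul_sub, sub_add_sub_cancel, ← mul_nsmul', ← pow_succ] at this
    intro v
    obtain ⟨u, hu⟩ := hk n v
    rwa [show p ^ n • u = 0 from funext fun i => Subtype.ext (mem_pTors.mp (u i).2), sub_zero]
      at hu
  exact htop t

/-- **Every automorphism of the `pⁿ`-torsion with every family of translations is induced.** -/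
theorem exists_act_family_pow (hp2 : p ≠ 2) (c₁ : (Fin 2 → ZMod (p ^ 1)) ≃+ pTors A p 1)
    (c : (Fin 2 → ZMod (p ^ n)) ≃+ pTors A p n)
    (hfull : ∀ φ : pTors A p n ≃+ pTors A p n, ∃ σ, ∀ x, act σ x.1 = (φ x).1)
    {Q : ι → A} (hQ : ∀ i σ, act σ (p ^ n • Q i) = p ^ n • Q i)
    (hind : ∀ a : ι → ℤ, (∃ i, ¬ (p : ℤ) ∣ a i) → ∀ R : A, (∀ σ, act σ R = R) →
      p • R ≠ ∑ i, a i • p ^ n • Q i)
    (φ : pTors A p n ≃+ pTors A p n) (t : ι → pTors A p n) :
    ∃ σ, (∀ x, act σ x.1 = (φ x).1) ∧ ∀ i, act σ (Q i) = Q i + (t i).1 := by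
  have hmul : ∀ (σ τ : G) (y : A), act (σ * τ) y = act σ (act τ y) := fun σ τ y => by
    rw [map_mul]; rfl
  have hinv : ∀ (σ : G) (y : A), act σ (act σ⁻¹ y) = y := fun σ y => by
    rw [← hmul, mul_inv_cancel, map_one]; rfl
  have hd : ∀ i σ, act σ (Q i) - Q i ∈ pTors A p n := fun i σ => by
    rw [mem_pTors, nsmul_sub, ← map_nsmul, hQ, sub_self]
  obtain ⟨σ, hσ⟩ := hfull φ
  have hw : ∀ i, act σ⁻¹ ((t i).1 - (act σ (Q i) - Q i)) ∈ pTors A p n := fun i => by
    have h0 := mem_pTors.mp (sub_mem (t i).2 (hd i σ))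
    rw [mem_pTors, ← map_nsmul, h0, map_zero]
  obtain ⟨g, hg, hgQ⟩ := exists_translations_pow act c hQ (fun m hm w =>
      exists_trivial_translation act hp2 (by omega) c₁ (exists_act_torsion_one act (by omega) c hfull)
        hfull (Q := fun i => p ^ m • Q i)
        (fun i σ => by rw [← mul_nsmul', ← pow_succ', ← hm]; exact hQ i σ)
        (fun a ha R hR he => hind a ha R hR (he.trans
          (Finset.sum_congr rfl fun i _ => by rw [← mul_nsmul', ← pow_succ', ← hm]))) w)
    fun i => ⟨_, hw i⟩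
  refine ⟨σ * g, fun x => by rw [hmul, hg x, hσ], fun i => ?_⟩
  rw [hmul, hgQ, map_add, hinv]; abel

end FA.Bashmakov

end
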