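import Fermat.Agent.Bashmakov.Core

/-!
# Kummer theory for an irreducible torsion module with `-1` in the image

Let a group act on an abelian group `A`, `p` odd, such that the `p`-torsion has no stable subgroup
but the two trivial ones and some element acts on it as `-1`. If `pⁿ Q` is fixed and is not `p`
times a fixed element, every element of the `pⁿ`-torsion is the translation of `Q` by an element
fixing that torsion. Some power of the element is `-1` on all of the `pⁿ`-torsion; the translations
form a stable subgroup, whose multiples by `p ^ (n - 1)` are all of the `p`-torsion, or none and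
then `pⁿ Q` has a fixed `p`-th part (Sah).
-/

set_option autoImplicit false

noncomputable section

namespace FA.Bashmakov

variable {G A : Type*} [Group G] [AddCommGroup A] (act : G →* AddMonoid.End A) {p : ℕ}

theorem act_mul (σ τ : G) (y : A) : act (σ * τ) y = act σ (act τ y) := by rw [map_mul]; rfl

theorem act_inv_act (σ : G) (y : A) : act σ⁻¹ (act σ y) = y := by
  rw [← act_mul, inv_mul_cancel, map_one]; rfl

theorem mem_pTors_iff {k : ℕ} {y : A} : y ∈ pTors A p k ↔ p ^ k • y = 0 := by
  rw [Submodule.mem_torsionBy_iff, ← Nat.cast_pow, natCast_zsmul]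

theorem pTors_mono {i k : ℕ} (h : i ≤ k) {y : A} (hy : y ∈ pTors A p i) : y ∈ pTors A p k := by
  rw [mem_pTors_iff] at hy ⊢
  rw [← Nat.sub_add_cancel h, pow_add, mul_nsmul', hy, nsmul_zero]

theorem act_mem_pTors (σ : G) {k : ℕ} {y : A} (hy : y ∈ pTors A p k) :
    act σ y ∈ pTors A p k := by
  rw [mem_pTors_iff] at hy ⊢
  rw [← map_nsmul, hy, map_zero]

/-- An element acting as `-1` on the `p`-torsion has a power doing so on the `pⁿ`-torsion. -/
theorem exists_neg_pTors (hp : Odd p) {τ : G} (hτ : ∀ y ∈ pTors A p 1, act τ y = -y) (n : ℕ) :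
    ∃ σ, ∀ y ∈ pTors A p n, act σ y = -y := by
  suffices h : ∃ σ, ∀ y ∈ pTors A p (n + 1), act σ y = -y by
    obtain ⟨σ, hσ⟩ := h
    exact ⟨σ, fun y hy => hσ y (pTors_mono n.le_succ hy)⟩
  induction n with
  | zero => exact ⟨τ, hτ⟩
  | succ n ih =>
    obtain ⟨σ, hσ⟩ := ih
    refine ⟨σ ^ p, fun y hy => ?_⟩
    set z := act σ y + y with hz
    have hpy : p • y ∈ pTors A p (n + 1) := by
      rw [mem_pTors_iff, ← mul_nsmul', ← pow_succ]
      exact mem_pTors_iff.mp hy
    have hpz : p • z = 0 := by rw [hz, nsmul_add, ← map_nsmul, hσ _ hpy, neg_add_cancel]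
    have hσz : act σ z = -z := hσ z (mem_pTors_iff.mpr (by
      rw [pow_succ, mul_nsmul', hpz, nsmul_zero]))
    have hσy : act σ y = z - y := by rw [hz, add_sub_cancel_right]
    have hpow : ∀ i : ℕ, act (σ ^ i) y = (-1 : ℤ) ^ i • (y - i • z) := by
      intro i
      induction i with
      | zero =>
        rw [pow_zero, map_one, pow_zero, zero_smul, sub_zero, one_zsmul]
        rfl
      | succ i ih =>
        rw [pow_succ', act_mul, ih, map_zsmul, map_sub, map_nsmul, hσy, hσz, pow_succ, mul_smul,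
          neg_one_zsmul, succ_nsmul, smul_neg, sub_neg_eq_add]
        congr 1
        abel
    rw [hpow, hp.neg_one_pow, neg_one_zsmul, hpz, sub_zero]

/-- **Every translation is given by an element fixing the torsion.** -/
theorem exists_translation (hp : Odd p) (n : ℕ)
    (hirr : ∀ S : AddSubgroup A, (∀ y ∈ S, y ∈ pTors A p 1) → (∀ σ, ∀ y ∈ S, act σ y ∈ S) →
      (∀ y ∈ S, y = 0) ∨ ∀ y ∈ pTors A p 1, y ∈ S)
    (hneg : ∃ τ, ∀ y ∈ pTors A p 1, act τ y = -y)
    {Q : A} (hQ : ∀ σ, act σ (p ^ n • Q) = p ^ n • Q)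
    (hP : ∀ R : A, (∀ σ, act σ R = R) → p • R ≠ p ^ n • Q)
    {t : A} (ht : t ∈ pTors A p n) :
    ∃ g, (∀ y ∈ pTors A p n, act g y = y) ∧ act g Q = Q + t := by
  have hd : ∀ σ, act σ Q - Q ∈ pTors A p n := fun σ => by
    rw [mem_pTors_iff, nsmul_sub, ← map_nsmul, hQ, sub_self]
  -- the translations by what fixes the torsion
  let C : AddSubgroup A :=
    { carrier := {v | v ∈ pTors A p n ∧
        ∃ g, (∀ y ∈ pTors A p n, act g y = y) ∧ act g Q = Q + v}
      zero_mem' := ⟨zero_mem _, 1, fun y _ => by rw [map_one]; rfl, by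
        rw [map_one, add_zero]; rfl⟩
      add_mem' := fun {v w} ⟨hv, g, hg, hgQ⟩ ⟨hw, h, hh, hhQ⟩ =>
        ⟨add_mem hv hw, g * h, fun y hy => by rw [act_mul, hh y hy, hg y hy], by
          rw [act_mul, hhQ, map_add, hgQ, hg w hw, add_assoc]⟩
      neg_mem' := fun {v} ⟨hv, g, hg, hgQ⟩ => by
        have hg' : ∀ y ∈ pTors A p n, act g⁻¹ y = y := fun y hy => by
          conv_lhs => rw [← hg y hy]
          rw [act_inv_act]
        refine ⟨neg_mem hv, g⁻¹, hg', ?_⟩
        have e := congrArg (act g⁻¹) hgQ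
        rw [act_inv_act, map_add, hg' v hv] at e
        rw [← sub_eq_add_neg, eq_sub_iff_add_eq]
        exact e.symm }
  have hC : ∀ σ, ∀ v ∈ C, act σ v ∈ C := by
    rintro σ v ⟨hv, g, hg, hgQ⟩
    have hinv : ∀ y, act σ (act σ⁻¹ y) = y := fun y => by
      simpa using act_inv_act act σ⁻¹ y
    refine ⟨act_mem_pTors act σ hv, σ * g * σ⁻¹, fun y hy => ?_, ?_⟩
    · rw [act_mul, act_mul, hg _ (act_mem_pTors act σ⁻¹ hy), hinv]
    · rw [act_mul, act_mul, show act σ⁻¹ Q = Q + (act σ⁻¹ Q - Q) by rw [add_sub_cancel], map_add,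
        hgQ, hg _ (hd σ⁻¹), add_right_comm, add_sub_cancel, map_add, hinv]
  suffices hall : ∀ k ≤ n, ∀ y ∈ pTors A p k, y ∈ C from (hall n le_rfl t ht).2
  intro k
  induction k with
  | zero =>
    intro _ y hy
    rw [mem_pTors_iff, pow_zero, one_nsmul] at hy
    exact hy ▸ zero_mem C
  | succ k ih =>
    intro hk y hy
    obtain ⟨m, rfl⟩ : ∃ m, n = m + 1 := ⟨n - 1, by omega⟩
    -- the multiples by `p ^ m` are all of the `p`-torsion
    have htop : ∀ z ∈ pTors A p 1, ∃ v ∈ C, p ^ m • v = z := by
      rcases hirr (C.map (DistribSMul.toAddMonoidHom A (p ^ m))) (by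
          rintro _ ⟨v, hv, rfl⟩
          show p ^ m • v ∈ pTors A p 1
          rw [mem_pTors_iff, ← mul_nsmul', ← pow_add, add_comm]
          exact mem_pTors_iff.mp hv.1)
        (by
          rintro σ _ ⟨v, hv, rfl⟩
          exact ⟨_, hC σ v hv, (map_nsmul (act σ) (p ^ m) v).symm⟩) with h0 | h
      · -- otherwise a fixed `p`-th part
        exfalso
        obtain ⟨Q', hQ'⟩ : ∃ R, R = p ^ m • Q := ⟨_, rfl⟩
        have hpQ : p • Q' = p ^ (m + 1) • Q := by rw [hQ', ← mul_nsmul', pow_succ']
        have hfix : ∀ g, (∀ y ∈ pTors A p (m + 1), act g y = y) → act g Q' = Q' := fun g hg => by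
          have h := h0 (p ^ m • (act g Q - Q))
            ⟨_, ⟨hd g, g, hg, (add_sub_cancel _ _).symm⟩, rfl⟩
          rw [nsmul_sub, sub_eq_zero, ← map_nsmul] at h
          rw [hQ', h]
        have hη : ∀ σ, p • (act σ Q' - Q') = 0 ∧ act σ Q' - Q' ∈ pTors A p (m + 1) := fun σ => by
          have h1 : p • (act σ Q' - Q') = 0 := by
            rw [nsmul_sub, ← map_nsmul, hpQ, hQ, sub_self]
          exact ⟨h1, mem_pTors_iff.mpr (by rw [pow_succ, mul_nsmul', h1, nsmul_zero])⟩
        obtain ⟨τ, hτ⟩ := hneg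
        obtain ⟨d, hneg⟩ := exists_neg_pTors act hp hτ (m + 1)
        have hcomm : ∀ σ, act σ (act d Q') = act d (act σ Q') := fun σ => by
          have hk : ∀ y ∈ pTors A p (m + 1), act ((σ * d)⁻¹ * (d * σ)) y = y := fun y hy => by
            have e : act (d * σ) y = act (σ * d) y := by
              rw [act_mul, act_mul, hneg _ (act_mem_pTors act σ hy), hneg y hy, map_neg]
            rw [act_mul, e, act_inv_act]
          have e := congrArg (act (σ * d)) (hfix _ hk)
          rw [← act_mul, mul_inv_cancel_left, act_mul, act_mul] at e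
          exact e.symm
        obtain ⟨h, hh⟩ := hp
        set a := act d Q' - Q' with ha
        refine hP (Q' + (h + 1) • a) (fun σ => ?_) ?_
        · have e := hcomm σ
          rw [show act d Q' = Q' + a by rw [ha, add_sub_cancel],
            show act σ Q' = Q' + (act σ Q' - Q') by rw [add_sub_cancel], map_add, map_add,
            hneg _ (hη σ).2, show act d Q' = Q' + a by rw [ha, add_sub_cancel],
            show act σ Q' = Q' + (act σ Q' - Q') by rw [add_sub_cancel]] at e
          have e2 : act σ a = a - 2 • (act σ Q' - Q') := by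
            rw [add_assoc, add_assoc, add_right_inj] at e
            rw [two_nsmul]
            rw [← eq_sub_iff_add_eq'] at e
            rw [e]; abel
          rw [map_add, map_nsmul, e2]
          have hp0 : (p + 1) • (act σ Q' - Q') = act σ Q' - Q' := by
            rw [succ_nsmul, (hη σ).1, zero_add]
          rw [nsmul_sub, ← mul_nsmul', show (h + 1) * 2 = p + 1 by omega, hp0]
          abel
        · rw [nsmul_add, hpQ, ← mul_nsmul', mul_comm, mul_nsmul', ha, (hη d).1, nsmul_zero,
            add_zero]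
      · intro z hz
        obtain ⟨v, hv, hvz⟩ := h z hz
        exact ⟨v, hv, hvz⟩
    obtain ⟨v, hv, hvy⟩ := htop (p ^ k • y) (by
      rw [mem_pTors_iff, ← mul_nsmul', ← pow_add, add_comm]
      exact mem_pTors_iff.mp hy)
    have hw : p ^ (m - k) • v ∈ C := C.nsmul_mem hv _
    have hdiff : y - p ^ (m - k) • v ∈ C := ih (by omega) _ (by
      rw [mem_pTors_iff, nsmul_sub, ← mul_nsmul', ← pow_add, Nat.add_sub_cancel' (by omega), hvy,
        sub_self])
    simpa using C.add_mem hdiff hw

end FA.Bashmakov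

end
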