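import Fermat.Agent.Root.SummaryOpenImageAll

/-!
# Scalars in an open image

If Galois induces every automorphism of `E[N]` which is the identity on the `m`-torsion, it induces
every scalar prime to `N` and congruent to one modulo `m`.
-/

set_option autoImplicit false
set_option linter.style.haveILetI false

noncomputable section

open WeierstrassCurve FA.Frob
open scoped WeierstrassCurve.Affine Classical

local notation "Qb" => AlgebraicClosure ℚ
local notation "GQ" => AlgebraicClosure ℚ ≃ₐ[ℚ] AlgebraicClosure ℚ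

namespace FA.Bashmakov

/-- **A scalar on the `N`-torsion** in an image containing what is one on the `m`-torsion. -/
theorem exists_scalar_level {E : WeierstrassCurve ℚ} [E.IsElliptic] {m N : ℕ}
    (hmN : ∀ φ : Submodule.torsionBy ℤ (E.toAffine⁄Qb).Point (N : ℤ) ≃+
        Submodule.torsionBy ℤ (E.toAffine⁄Qb).Point (N : ℤ),
      (∀ P, m • P.1 = 0 → φ P = P) → ∃ σ : GQ, ∀ P, Affine.Point.map σ.toAlgHom P.1 = (φ P).1)
    {c : ℤ} (hm : (m : ℤ) ∣ c - 1) (hc : IsCoprime c (N : ℤ)) :
    ∃ τ : GQ, ∀ y : (E.toAffine⁄Qb).Point, N • y = 0 →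
      Affine.Point.map τ.toAlgHom y = c • y := by
  obtain ⟨u, v, huv⟩ := hc
  set T := Submodule.torsionBy ℤ (E.toAffine⁄Qb).Point (N : ℤ)
  have hT : ∀ z : T, (N : ℤ) • z = 0 := fun z =>
    Subtype.ext ((Submodule.mem_torsionBy_iff _ _).mp z.2)
  have hcu : ∀ z : T, (u * c) • z = z := fun z => by
    conv_rhs => rw [← one_zsmul z, ← huv, add_zsmul, mul_zsmul _ v, hT, zsmul_zero, add_zero]
  let φ : T ≃+ T :=
    { toFun := fun z => c • z
      invFun := fun z => u • z
      left_inv := fun z => by show u • c • z = z; rw [← mul_smul, hcu]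
      right_inv := fun z => by show c • u • z = z; rw [← mul_smul, mul_comm, hcu]
      map_add' := fun z w => smul_add c z w }
  obtain ⟨k, hk⟩ := hm
  obtain ⟨τ, hτ⟩ := hmN φ fun z hz => Subtype.ext (by
    show c • z.1 = z.1
    rw [show c = 1 + k * (m : ℤ) by linear_combination hk, add_zsmul, one_zsmul, mul_zsmul,
      natCast_zsmul z.1 m, hz, zsmul_zero, add_zero])
  exact ⟨τ, fun y hy => hτ ⟨y, by rw [Submodule.mem_torsionBy_iff, natCast_zsmul]; exact hy⟩⟩

end FA.Bashmakov

end
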